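/-
S18 / wave 4, leaf C1 (helper9): the DEGREE OF A FUNCTION ON A RESIDUE DISC.

`exists_finset_sum_ord`: from the fibre statements (finitely many places over `x = c`, the
norm-order formula) the sum of the orders of `f` over the places of the residue disc of `b` is the
number of zeros minus the number of poles of `N_{F/K(x)} f = p(x)/q(x)` in the disc `b + m_A`.

`tube_of_sum`, `tube_of_norm`: a function without poles on the disc whose norm has exactly one
zero (counted with multiplicity) more than poles on the disc, and which vanishes at `P`, has a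
simple zero at `P` and no other zero on the disc (the F-side half of the tubes, D8).
-/
import Fermat.Agent.S18.H74.CoreDefs
import Fermat.Agent.S24.Residue

set_option autoImplicit false

open AlgebraicCurve IntermediateField Polynomial

namespace Fermat.Agent.S18.H9C

open Fermat.Agent.S18.H74

variable {K F : Type*} [Field K] [Field F] [Algebra K F]

/-- A count of roots satisfying a predicate, as a sum of root multiplicities over any finite set
of points satisfying the predicate which contains the relevant roots. -/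
theorem countP_roots_eq_sum [DecidableEq K] (p : K[X]) (pred : K → Prop)
    [DecidablePred pred] (C : Finset K) (hC : ∀ c ∈ p.roots, pred c → c ∈ C)
    (hC' : ∀ c ∈ C, pred c) :
    p.roots.countP pred = ∑ c ∈ C, p.rootMultiplicity c := by
  rw [Multiset.countP_eq_card_filter]
  have h1 : ∀ c ∈ (p.roots.filter pred), c ∈ C := by
    intro c hc
    rw [Multiset.mem_filter] at hc
    exact hC c hc.1 hc.2
  rw [← Multiset.sum_count_eq_card h1]
  refine Finset.sum_congr rfl fun c hc => ?_
  rw [Multiset.count_filter_of_pos (hC' c hc), count_roots]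

open Classical in
/-- **Degree on a disc.**  (`FIB1`: finitely many places over `x = c`; `hfin`: finitely many zeros
and poles of `f`; `hnorm`: the norm-order formula for `f`, with `N(f) = p(x)/q(x)`.) -/
theorem exists_finset_sum_ord (A : ValuationSubring K) (x : F) (b : K)
    (FIB1 : ∀ c : K, {P : Place K F | 0 < P.ord (x - algebraMap K F c)}.Finite)
    (f : F) (hfin : {P : Place K F | P.ord f ≠ 0}.Finite)
    (p q : K[X])
    (hnorm : ∀ c : K, (p.rootMultiplicity c : ℤ) - q.rootMultiplicity c
        = ∑ᶠ P ∈ {P : Place K F | 0 < P.ord (x - algebraMap K F c)}, P.ord f) :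
    ∃ s : Finset (Place K F), (∀ P ∈ s, InDisc A x b P) ∧
      (∀ P : Place K F, InDisc A x b P → P.ord f ≠ 0 → P ∈ s) ∧
      ∑ P ∈ s, P.ord f = (p.roots.countP (fun c => c - b ∈ A.nonunits) : ℤ)
        - q.roots.countP (fun c => c - b ∈ A.nonunits) := by
  -- a centre for every place of the disc
  let cen : Place K F → K := fun P => if h : InDisc A x b P then h.choose else b
  have hcen : ∀ P : Place K F, InDisc A x b P →
      cen P - b ∈ A.nonunits ∧ 0 < P.ord (x - algebraMap K F (cen P)) := by
    intro P hP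
    have : cen P = hP.choose := dif_pos hP
    rw [this]
    exact hP.choose_spec
  let T : Finset (Place K F) := hfin.toFinset.filter (InDisc A x b)
  let C : Finset K := ((p.roots.toFinset ∪ q.roots.toFinset).filter
    (fun c => c - b ∈ A.nonunits)) ∪ T.image cen
  have hCdisc : ∀ c ∈ C, c - b ∈ A.nonunits := by
    intro c hc
    rcases Finset.mem_union.mp hc with h | h
    · exact (Finset.mem_filter.mp h).2
    · obtain ⟨P, hP, rfl⟩ := Finset.mem_image.mp h
      exact (hcen P (Finset.mem_filter.mp hP).2).1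
  let fib : K → Finset (Place K F) := fun c => (FIB1 c).toFinset
  have hfib : ∀ c P, P ∈ fib c ↔ 0 < P.ord (x - algebraMap K F c) := by
    intro c P
    simp [fib]
  refine ⟨C.biUnion fib, ?_, ?_, ?_⟩
  · intro P hP
    obtain ⟨c, hc, hPc⟩ := Finset.mem_biUnion.mp hP
    exact ⟨c, hCdisc c hc, (hfib c P).mp hPc⟩
  · intro P hP hPf
    refine Finset.mem_biUnion.mpr ⟨cen P, ?_, (hfib _ P).mpr (hcen P hP).2⟩
    refine Finset.mem_union.mpr (Or.inr (Finset.mem_image.mpr ⟨P, ?_, rfl⟩))
    exact Finset.mem_filter.mpr ⟨hfin.mem_toFinset.mpr hPf, hP⟩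
  · have hdisj : (C : Set K).PairwiseDisjoint fib := by
      intro c _ c' _ hcc'
      refine Finset.disjoint_left.mpr fun P hP hP' => hcc' ?_
      exact Fermat.Agent.S24.center_unique x P ((hfib c P).mp hP) ((hfib c' P).mp hP')
    rw [Finset.sum_biUnion hdisj]
    have h1 : ∀ c ∈ C, ∑ P ∈ fib c, P.ord f
        = (p.rootMultiplicity c : ℤ) - q.rootMultiplicity c := by
      intro c _
      rw [hnorm c, finsum_mem_eq_finite_toFinset_sum _ (FIB1 c)]
    rw [Finset.sum_congr rfl h1, Finset.sum_sub_distrib]
    have hp : p.roots.countP (fun c => c - b ∈ A.nonunits) = ∑ c ∈ C, p.rootMultiplicity c := by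
      refine countP_roots_eq_sum p _ C (fun c hc hcb => ?_) hCdisc
      refine Finset.mem_union.mpr (Or.inl (Finset.mem_filter.mpr ⟨?_, hcb⟩))
      exact Finset.mem_union.mpr (Or.inl (Multiset.mem_toFinset.mpr hc))
    have hq : q.roots.countP (fun c => c - b ∈ A.nonunits) = ∑ c ∈ C, q.rootMultiplicity c := by
      refine countP_roots_eq_sum q _ C (fun c hc hcb => ?_) hCdisc
      refine Finset.mem_union.mpr (Or.inl (Finset.mem_filter.mpr ⟨?_, hcb⟩))
      exact Finset.mem_union.mpr (Or.inr (Multiset.mem_toFinset.mpr hc))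
    rw [hp, hq]
    push_cast
    rfl

/-- Combinatorial step: nonnegative orders on the disc with total `1` and a zero at `P`. -/
theorem tube_of_sum (D : Place K F → Prop) (τ : F)
    (hτD : ∀ P : Place K F, D P → 0 ≤ P.ord τ)
    (s : Finset (Place K F)) (hs : ∀ P ∈ s, D P)
    (hs' : ∀ P : Place K F, D P → P.ord τ ≠ 0 → P ∈ s)
    (hsum : ∑ P ∈ s, P.ord τ = 1)
    (P : Place K F) (hP : D P) (hτP : 0 < P.ord τ) :
    P.ord τ = 1 ∧ ∀ P' : Place K F, D P' → P' ≠ P → P'.ord τ = 0 := by
  classical
  have hPs : P ∈ s := hs' P hP (ne_of_gt hτP)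
  have hsplit := Finset.add_sum_erase s (fun P => P.ord τ) hPs
  have hnn : ∀ P' ∈ s.erase P, 0 ≤ P'.ord τ := fun P' hP' =>
    hτD P' (hs P' (Finset.mem_of_mem_erase hP'))
  have hge : 0 ≤ ∑ P' ∈ s.erase P, P'.ord τ := Finset.sum_nonneg hnn
  have h1 : P.ord τ = 1 := by
    omega
  have h0 : ∑ P' ∈ s.erase P, P'.ord τ = 0 := by
    omega
  refine ⟨h1, fun P' hP' hne => ?_⟩
  by_contra hne0
  have hP's : P' ∈ s.erase P := Finset.mem_erase.mpr ⟨hne, hs' P' hP' hne0⟩
  exact hne0 ((Finset.sum_eq_zero_iff_of_nonneg hnn).mp h0 P' hP's)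

open Classical in
/-- **Tubes, F-side.**  `τ` has no pole on the disc, vanishes at `P`, and its norm `p(x)/q(x)` has
exactly one more zero than poles in the disc `b + m_A`: then `τ` has a simple zero at `P` and no
other zero on the disc. -/
theorem tube_of_norm (A : ValuationSubring K) (x : F) (b : K)
    (FIB1 : ∀ c : K, {P : Place K F | 0 < P.ord (x - algebraMap K F c)}.Finite)
    (τ : F) (hfin : {P : Place K F | P.ord τ ≠ 0}.Finite)
    (hτD : ∀ P : Place K F, InDisc A x b P → 0 ≤ P.ord τ)
    (p q : K[X])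
    (hnorm : ∀ c : K, (p.rootMultiplicity c : ℤ) - q.rootMultiplicity c
        = ∑ᶠ P ∈ {P : Place K F | 0 < P.ord (x - algebraMap K F c)}, P.ord τ)
    (hcount : p.roots.countP (fun c => c - b ∈ A.nonunits)
        = q.roots.countP (fun c => c - b ∈ A.nonunits) + 1)
    (P : Place K F) (hP : InDisc A x b P) (hτP : 0 < P.ord τ) :
    P.ord τ = 1 ∧ ∀ P' : Place K F, InDisc A x b P' → P' ≠ P → P'.ord τ = 0 := by
  obtain ⟨s, hs, hs', hsum⟩ := exists_finset_sum_ord A x b FIB1 τ hfin p q hnorm
  refine tube_of_sum (InDisc A x b) τ hτD s hs hs' ?_ P hP hτP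
  rw [hsum, hcount]
  push_cast
  ring

end Fermat.Agent.S18.H9C
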