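/-
S18 / wave 4, package C1/D9 (helper9): the CLEARING lemma.

Abstract form of step D9 of the design notes for `exists_clear` (route of helper74):
`D` is the predicate "the place lies in the residue disc", the ring `S_b` of the notes is
`{f ∈ O | ∀ P, D P → 0 ≤ P.ord f}` and is only used through the explicit hypotheses
`TUBE` (uniformisers with exactly one simple zero on the disc), `IC` (the reduction of `S_b` is
closed under `m`-th roots) and `UNIT` (an element of `S_b` which is a unit modulo `m_O`,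
with inverse in the reduction of `S_b`, has no zero on the disc).
-/
import Mathlib
import Fermat.Prelude.Def_AlgebraicCurve_DivisorClassGroup
import Fermat.Agent.S24.H52.AddVal

set_option autoImplicit false

open AlgebraicCurve

namespace Fermat.Agent.S18.H9C

section Val

variable {F : Type*} [Field F] (O : ValuationSubring F)

theorem mem_iff_val {a : F} : a ∈ O ↔ O.valuation a ≤ 1 :=
  (O.valuation_le_one_iff a).symm

/-- `a` and `a⁻¹` both in `O`, `a ≠ 0`: the valuation is one. -/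
theorem val_eq_one_of_mem {a : F} (ha0 : a ≠ 0) (ha : a ∈ O) (hai : a⁻¹ ∈ O) :
    O.valuation a = 1 := by
  have h1 : O.valuation a ≤ 1 := (mem_iff_val O).mp ha
  have h2 : O.valuation a⁻¹ ≤ 1 := (mem_iff_val O).mp hai
  rw [map_inv₀] at h2
  have hne : O.valuation a ≠ 0 := (Valuation.ne_zero_iff _).mpr ha0
  have h3 : 1 ≤ O.valuation a := by
    have := mul_le_mul_left h2 (O.valuation a)
    rwa [inv_mul_cancel₀ hne, one_mul] at this
  exact le_antisymm h1 h3

theorem mem_of_val_eq_one {a : F} (h : O.valuation a = 1) : a ∈ O ∧ a⁻¹ ∈ O ∧ a ≠ 0 := by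
  refine ⟨(mem_iff_val O).mpr h.le, (mem_iff_val O).mpr ?_, ?_⟩
  · rw [map_inv₀, h, inv_one]
  · rintro rfl
    rw [map_zero] at h
    exact zero_ne_one h

/-- A one-unit has valuation one. -/
theorem val_oneUnit {u : F} (hu : u - 1 ∈ O.nonunits) : O.valuation u = 1 := by
  rw [ValuationSubring.mem_nonunits_iff] at hu
  have : u = 1 + (u - 1) := by ring
  rw [this]
  exact O.valuation.map_one_add_of_lt hu

end Val

section Ord

variable {K F : Type*} [Field K] [Field F] [Algebra K F]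

theorem ne_zero_of_ord_ne_zero (P : Place K F) {f : F} (h : P.ord f ≠ 0) : f ≠ 0 := by
  rintro rfl
  exact h P.ord_zero

theorem ord_pow (P : Place K F) (f : F) (n : ℕ) : P.ord (f ^ n) = n * P.ord f := by
  have := P.ord_zpow f (n : ℤ)
  rwa [zpow_natCast] at this

theorem ord_div (P : Place K F) {f g : F} (hf : f ≠ 0) (hg : g ≠ 0) :
    P.ord (f / g) = P.ord f - P.ord g := by
  rw [div_eq_mul_inv, P.ord_mul hf (inv_ne_zero hg), P.ord_inv]
  ring

theorem ord_prod (P : Place K F) {ι : Type*} (s : Finset ι) (f : ι → F)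
    (hf : ∀ i ∈ s, f i ≠ 0) : P.ord (∏ i ∈ s, f i) = ∑ i ∈ s, P.ord (f i) := by
  classical
  induction s using Finset.induction_on with
  | empty => simp
  | insert a s ha ih =>
    rw [Finset.prod_insert ha, Finset.sum_insert ha,
      P.ord_mul (hf a (Finset.mem_insert_self a s))
        (Finset.prod_ne_zero_iff.mpr fun i hi => hf i (Finset.mem_insert_of_mem hi)),
      ih fun i hi => hf i (Finset.mem_insert_of_mem hi)]

end Ord

section Clearing

variable {K F : Type*} [Field K] [Field F] [Algebra K F]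

/-- **Clearing (D9).**  Let `u` be a one-unit of `O` whose orders on the "disc" `D` are divisible
by `m`.  Assume (FIN) only finitely many places of the disc see `u`; (TUBE) every place of the disc
has a uniformiser which is a unit of `O` and has no other zero or pole on the disc; (IC) the
reduction of `S_b = {f ∈ O | no pole on the disc}` is closed under `m`-th roots of its elements;
(UNIT) elements of `S_b` which are mutually inverse modulo `m_O` have no zero on the disc.
Then the divisor of `u` on the disc is `m` times the divisor of a ONE-UNIT `g`. -/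
theorem clearing (O : ValuationSubring F) (D : Place K F → Prop)
    (m : ℕ) (u : F) (hu : u - 1 ∈ O.nonunits)
    (hord : ∀ P : Place K F, D P → (m : ℤ) ∣ P.ord u)
    (FIN : {P : Place K F | D P ∧ P.ord u ≠ 0}.Finite)
    (TUBE : ∀ P : Place K F, D P → ∃ τ : F, τ ∈ O ∧ τ⁻¹ ∈ O ∧
      P.ord τ = 1 ∧ ∀ P' : Place K F, D P' → P' ≠ P → P'.ord τ = 0)
    (IC : ∀ y : F, y ∈ O → (∃ w : F, w ∈ O ∧ (∀ P : Place K F, D P → 0 ≤ P.ord w) ∧
        y ^ m - w ∈ O.nonunits) →
      ∃ s : F, s ∈ O ∧ (∀ P : Place K F, D P → 0 ≤ P.ord s) ∧ y - s ∈ O.nonunits)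
    (UNIT : ∀ s s' : F, s ∈ O → (∀ P : Place K F, D P → 0 ≤ P.ord s) →
      s' ∈ O → (∀ P : Place K F, D P → 0 ≤ P.ord s') → s * s' - 1 ∈ O.nonunits →
      ∀ P : Place K F, D P → P.ord s = 0) :
    ∃ g : F, g - 1 ∈ O.nonunits ∧ ∀ P : Place K F, D P → (m : ℤ) * P.ord g = P.ord u := by
  classical
  set v := O.valuation with hv
  have hnon : ∀ {a : F}, a ∈ O.nonunits ↔ v a < 1 := fun {a} => O.mem_nonunits_iff
  have hvu : v u = 1 := val_oneUnit O hu
  have hu0 : u ≠ 0 := (mem_of_val_eq_one O hvu).2.2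
  -- the uniformisers
  have TUBE' : ∀ P : Place K F, ∃ τ : F, D P → (v τ = 1 ∧ τ ≠ 0 ∧
      P.ord τ = 1 ∧ ∀ P' : Place K F, D P' → P' ≠ P → P'.ord τ = 0) := by
    intro P
    by_cases hP : D P
    · obtain ⟨τ, h1, h2, h3, h4⟩ := TUBE P hP
      have h0 : τ ≠ 0 := ne_zero_of_ord_ne_zero P (by rw [h3]; exact one_ne_zero)
      exact ⟨τ, fun _ => ⟨val_eq_one_of_mem O h0 h1 h2, h0, h3, h4⟩⟩
    · exact ⟨1, fun h => absurd h hP⟩
  choose τ hτ using TUBE'
  set T : Finset (Place K F) := FIN.toFinset with hT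
  have hTmem : ∀ P, P ∈ T ↔ D P ∧ P.ord u ≠ 0 := fun P => by
    rw [hT, Set.Finite.mem_toFinset]; rfl
  set e : Place K F → ℤ := fun P => P.ord u / (m : ℤ) with he
  set g0 : F := ∏ P ∈ T, τ P ^ (e P) with hg0
  have hτ0 : ∀ P ∈ T, τ P ^ (e P) ≠ 0 := fun P hP =>
    zpow_ne_zero _ (hτ P ((hTmem P).mp hP).1).2.1
  have hg0ne : g0 ≠ 0 := Finset.prod_ne_zero_iff.mpr hτ0
  have hvg0 : v g0 = 1 := by
    rw [hg0, map_prod]
    refine Finset.prod_eq_one fun P hP => ?_
    rw [map_zpow₀, (hτ P ((hTmem P).mp hP).1).1, one_zpow]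
  -- the orders of `g0` on the disc
  have hg0ord : ∀ P' : Place K F, D P' → (m : ℤ) * P'.ord g0 = P'.ord u := by
    intro P' hP'
    have hsum : P'.ord g0 = ∑ P ∈ T, e P * P'.ord (τ P) := by
      rw [hg0, ord_prod P' T _ hτ0]
      refine Finset.sum_congr rfl fun P _ => ?_
      rw [P'.ord_zpow]
    by_cases hmem : P' ∈ T
    · have h1 : ∑ P ∈ T, e P * P'.ord (τ P) = e P' := by
        rw [Finset.sum_eq_single P']
        · rw [(hτ P' hP').2.2.1, mul_one]
        · intro P hP hne
          rw [(hτ P ((hTmem P).mp hP).1).2.2.2 P' hP' (Ne.symm hne), mul_zero]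
        · intro h; exact absurd hmem h
      rw [hsum, h1, he]
      exact Int.mul_ediv_cancel' (hord P' hP')
    · have h0 : P'.ord u = 0 := by
        by_contra h
        exact hmem ((hTmem P').mpr ⟨hP', h⟩)
      have h1 : ∑ P ∈ T, e P * P'.ord (τ P) = 0 := by
        refine Finset.sum_eq_zero fun P hP => ?_
        have hne : P' ≠ P := fun h => hmem (h ▸ hP)
        rw [(hτ P ((hTmem P).mp hP).1).2.2.2 P' hP' hne, mul_zero]
      rw [hsum, h1, h0, mul_zero]
  -- `u' = u / g0^m` is a unit of `S_b`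
  have hgm0 : g0 ^ m ≠ 0 := pow_ne_zero _ hg0ne
  have hvgm : v (g0 ^ m) = 1 := by rw [map_pow, hvg0, one_pow]
  set u' : F := u / g0 ^ m with hu'
  have hu'0 : u' ≠ 0 := div_ne_zero hu0 hgm0
  have hvu' : v u' = 1 := by rw [hu', map_div₀, hvu, hvgm, div_one]
  have hu'ord : ∀ P : Place K F, D P → P.ord u' = 0 := by
    intro P hP
    rw [hu', ord_div P hu0 hgm0, ord_pow, hg0ord P hP, sub_self]
  -- `m`-th roots in the reduction of `S_b`
  obtain ⟨s, hsO, hsord, hs⟩ := IC g0 ((mem_iff_val O).mpr hvg0.le) ⟨u'⁻¹,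
    (mem_iff_val O).mpr (by rw [map_inv₀, hvu', inv_one]),
    fun P hP => by rw [P.ord_inv, hu'ord P hP, neg_zero], by
      rw [hnon]
      have : g0 ^ m - u'⁻¹ = g0 ^ m * u⁻¹ * (u - 1) := by
        rw [hu', inv_div]; field_simp
      rw [this, map_mul, map_mul, hvgm, map_inv₀, hvu, inv_one, one_mul, one_mul]
      exact hnon.mp hu⟩
  obtain ⟨s₁, hs₁O, hs₁ord, hs₁⟩ := IC g0⁻¹ ((mem_iff_val O).mpr (by
      rw [map_inv₀, hvg0, inv_one])) ⟨u', (mem_iff_val O).mpr hvu'.le,
    fun P hP => (hu'ord P hP).ge, by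
      rw [hnon]
      have : g0⁻¹ ^ m - u' = -((g0 ^ m)⁻¹ * (u - 1)) := by
        rw [hu', inv_pow, div_eq_mul_inv]; ring
      rw [this, Valuation.map_neg, map_mul, map_inv₀, hvgm, inv_one, one_mul]
      exact hnon.mp hu⟩
  -- `s` is a unit of `S_b`
  have hss₁ : s * s₁ - 1 ∈ O.nonunits := by
    have hid : s * s₁ - 1 = (g0 - s) * (g0⁻¹ - s₁) - g0 * (g0⁻¹ - s₁) - g0⁻¹ * (g0 - s) := by
      field_simp
      ring
    rw [hid, hnon]
    have h1 : v (g0 - s) < 1 := hnon.mp hs
    have h2 : v (g0⁻¹ - s₁) < 1 := hnon.mp hs₁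
    refine v.map_sub_lt (v.map_sub_lt ?_ ?_) ?_
    · rw [map_mul]
      calc v (g0 - s) * v (g0⁻¹ - s₁) ≤ 1 * v (g0⁻¹ - s₁) := mul_le_mul_left h1.le _
        _ = v (g0⁻¹ - s₁) := one_mul _
        _ < 1 := h2
    · rw [map_mul, hvg0, one_mul]; exact h2
    · rw [map_mul, map_inv₀, hvg0, inv_one, one_mul]; exact h1
  have hs0ord : ∀ P : Place K F, D P → P.ord s = 0 := UNIT s s₁ hsO hsord hs₁O hs₁ord hss₁
  have hvs : v s = 1 := by
    have h1 : v (g0 - s) < v g0 := by rw [hvg0]; exact hnon.mp hs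
    have : s = g0 - (g0 - s) := by ring
    rw [this, v.map_sub_eq_of_lt_left h1, hvg0]
  have hs0 : s ≠ 0 := (mem_of_val_eq_one O hvs).2.2
  refine ⟨g0 / s, ?_, fun P hP => ?_⟩
  · rw [hnon]
    have : g0 / s - 1 = (g0 - s) * s⁻¹ := by field_simp
    rw [this, map_mul, map_inv₀, hvs, inv_one, mul_one]
    exact hnon.mp hs
  · rw [ord_div P hg0ne hs0, hs0ord P hP, sub_zero, hg0ord P hP]

end Clearing

section UnitLemma

variable {K F : Type*} [Field K] [Field F] [Algebra K F]

open Fermat.Agent.S24 in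
theorem ord_nonneg_iff_mem (P : Place K F) (f : F) :
    0 ≤ P.ord f ↔ f ∈ P.toValuationSubring := by
  by_cases hf : f = 0
  · subst hf
    simp
  · exact (H52.mem_iff_ord_nonneg P hf).symm

open Fermat.Agent.S24 in
theorem ord_algebraMap (P : Place K F) {a : K} (_ha : a ≠ 0) :
    P.ord (algebraMap K F a) = 0 := by
  have h1 := H52.ord_nonneg_of_mem P (P.algebraMap_mem' a)
  have h2 := H52.ord_nonneg_of_mem P (P.algebraMap_mem' a⁻¹)
  rw [map_inv₀, P.ord_inv] at h2
  omega

/-- **(UNIT) from (EV) and (MO).**  If the values on the disc of the functions of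
`S_b = {f ∈ O | no pole on the disc}` lie in `A` (EV) and `m_O ∩ S_b = m_A S_b` (MO), then two
elements of `S_b` which are inverse to each other modulo `m_O` have no zero on the disc. -/
theorem unit_of_ev_mo (A : ValuationSubring K) (O : ValuationSubring F) (D : Place K F → Prop)
    (EV : ∀ t : F, t ∈ O → (∀ P : Place K F, D P → 0 ≤ P.ord t) →
      ∀ P : Place K F, D P → ∀ c : K, 0 < P.ord (t - algebraMap K F c) → c ∈ A)
    (MO : ∀ e : F, e ∈ O.nonunits → (∀ P : Place K F, D P → 0 ≤ P.ord e) →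
      ∃ a : K, a ∈ A.nonunits ∧ ∃ t : F, t ∈ O ∧ (∀ P : Place K F, D P → 0 ≤ P.ord t) ∧
        e = algebraMap K F a * t)
    (s s' : F) (_hs : s ∈ O) (hsord : ∀ P : Place K F, D P → 0 ≤ P.ord s)
    (_hs' : s' ∈ O) (hs'ord : ∀ P : Place K F, D P → 0 ≤ P.ord s')
    (h : s * s' - 1 ∈ O.nonunits) :
    ∀ P : Place K F, D P → P.ord s = 0 := by
  intro P hP
  -- `s s'` is a one-unit, in particular nonzero
  have hv : O.valuation (s * s') = 1 := val_oneUnit O h
  have hss0 : s * s' ≠ 0 := (mem_of_val_eq_one O hv).2.2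
  have hs0 : s ≠ 0 := left_ne_zero_of_mul hss0
  have hs'0 : s' ≠ 0 := right_ne_zero_of_mul hss0
  by_contra hne
  have hpos : 0 < P.ord s := lt_of_le_of_ne (hsord P hP) (Ne.symm hne)
  have hpos2 : 0 < P.ord (s * s') := by
    rw [P.ord_mul hs0 hs'0]
    have := hs'ord P hP
    omega
  -- `e = s s' - 1` lies in `S_b ∩ m_O`
  have heord : ∀ P' : Place K F, D P' → 0 ≤ P'.ord (s * s' - 1) := by
    intro P' hP'
    rw [ord_nonneg_iff_mem]
    exact sub_mem
      (mul_mem ((ord_nonneg_iff_mem P' s).mp (hsord P' hP'))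
        ((ord_nonneg_iff_mem P' s').mp (hs'ord P' hP')))
      (one_mem _)
  obtain ⟨a, ha, t, htO, htord, het⟩ := MO (s * s' - 1) h heord
  have hss : s * s' = algebraMap K F a * t + 1 := by rw [← het]; ring
  by_cases ha0 : a = 0
  · rw [hss, ha0, map_zero, zero_mul, zero_add, P.ord_one] at hpos2
    exact lt_irrefl _ hpos2
  · have hainv : a⁻¹ ∉ A := by
      rcases (A.mem_nonunits_iff_or).mp ha with h0 | h0
      · exact absurd h0 ha0
      · exact h0
    have hfac : s * s' = algebraMap K F a * (t - algebraMap K F (-a⁻¹)) := by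
      rw [hss, map_neg, map_inv₀]
      have : algebraMap K F a ≠ 0 := by simpa using ha0
      field_simp
      ring
    have ht0 : t - algebraMap K F (-a⁻¹) ≠ 0 := by
      intro h0
      rw [hfac, h0, mul_zero] at hss0
      exact hss0 rfl
    have hA0 : algebraMap K F a ≠ 0 := by simpa using ha0
    rw [hfac, P.ord_mul hA0 ht0, ord_algebraMap P ha0, zero_add] at hpos2
    have := EV t htO htord P hP (-a⁻¹) hpos2
    exact hainv (by simpa using A.neg_mem _ this)

end UnitLemma

end Fermat.Agent.S18.H9C
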