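/-
S18 / wave 4, leaf C1 (helper9): FIRST LAYER of the assembly of `exists_clear`.

`exists_clear_of` has the conclusion of `Fermat.Agent.S18.H74.exists_clear` verbatim (skeleton of
helper74) and takes as explicit hypotheses, all stated for the residue disc `InDisc A x b` and the
ring `S_b = discRing A O x b`:

* `FIN`  : only finitely many places of the disc see `u`                      (fibres, D1(b));
* `TUBE` : every place of the disc has a uniformiser which is a unit of `O` and has no other zero
           or pole on the disc                                               (tubes, D8);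
* `IC`   : `y ∈ O`, `y ^ m ∈ S_b + m_O`  ⟹  `y ∈ S_b + m_O`                   (Key Lemma, D7);
* `EV`   : the values of the elements of `S_b` at the places of the disc lie in `A`   (D3);
* `MO`   : `m_O ∩ S_b = m_A S_b`                                               (D3).
-/
import Fermat.Agent.S18.H74.CoreDefs
import Fermat.Agent.S18.H9C.Clearing

set_option autoImplicit false

open AlgebraicCurve

namespace Fermat.Agent.S18.H9C

open Fermat.Agent.S18.H74

variable {K F : Type*} [Field K] [Field F] [Algebra K F]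

theorem mem_discRing_iff (A : ValuationSubring K) (O : ValuationSubring F) (x : F) (b : K)
    (f : F) : f ∈ discRing A O x b ↔ f ∈ O ∧ ∀ P : Place K F, InDisc A x b P → 0 ≤ P.ord f :=
  Iff.rfl

/-- **`exists_clear` from (FIN), (TUBE), (IC), (EV), (MO).** -/
theorem exists_clear_of (A : ValuationSubring K) (O : ValuationSubring F) (x : F) (b : K)
    (m : ℕ) (u : F) (hu : u - 1 ∈ O.nonunits)
    (hord : ∀ P : Place K F, InDisc A x b P → (m : ℤ) ∣ P.ord u)
    (FIN : {P : Place K F | InDisc A x b P ∧ P.ord u ≠ 0}.Finite)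
    (TUBE : ∀ P : Place K F, InDisc A x b P → ∃ τ : F, τ ∈ O ∧ τ⁻¹ ∈ O ∧
      P.ord τ = 1 ∧ ∀ P' : Place K F, InDisc A x b P' → P' ≠ P → P'.ord τ = 0)
    (IC : ∀ y : F, y ∈ O → (∃ w : F, w ∈ discRing A O x b ∧ y ^ m - w ∈ O.nonunits) →
      ∃ s : F, s ∈ discRing A O x b ∧ y - s ∈ O.nonunits)
    (EV : ∀ t : F, t ∈ discRing A O x b → ∀ P : Place K F, InDisc A x b P →
      ∀ c : K, 0 < P.ord (t - algebraMap K F c) → c ∈ A)
    (MO : ∀ e : F, e ∈ discRing A O x b → e ∈ O.nonunits →
      ∃ a : K, a ∈ A.nonunits ∧ ∃ t : F, t ∈ discRing A O x b ∧ e = algebraMap K F a * t) :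
    ∃ g : F, g - 1 ∈ O.nonunits ∧
      ∀ P : Place K F, InDisc A x b P → (m : ℤ) * P.ord g = P.ord u := by
  refine clearing O (InDisc A x b) m u hu hord FIN TUBE ?_ ?_
  · rintro y hy ⟨w, hwO, hwD, hw⟩
    obtain ⟨s, hs, hys⟩ := IC y hy ⟨w, ⟨hwO, hwD⟩, hw⟩
    exact ⟨s, hs.1, hs.2, hys⟩
  · refine unit_of_ev_mo A O (InDisc A x b) ?_ ?_
    · intro t htO htD P hP c hc
      exact EV t ⟨htO, htD⟩ P hP c hc
    · intro e he heD
      obtain ⟨a, ha, t, ht, het⟩ := MO e ⟨O.nonunits_subset he, heD⟩ he
      exact ⟨a, ha, t, ht.1, ht.2, het⟩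

end Fermat.Agent.S18.H9C
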