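/-
S18 / wave 4, leaf C1 (helper9): TUBES (D8), residue half and assembly.
-/
import Fermat.Agent.S18.H5.Defs
import Fermat.Agent.S18.H80.Trace
import Fermat.Agent.S18.H80.Indep
import Fermat.Agent.S18.H80.ResK
import Fermat.Agent.S18.H4.DiscDVR
import Fermat.Agent.S18.H45.DvrClosed
import Fermat.Agent.S18.H42.FiniteOrd
import Fermat.Agent.S18.H53.NormOrder
import Fermat.Agent.S18.H46.FibLocal
import Fermat.Agent.S18.H9C.DiscDegree

set_option autoImplicit false

open AlgebraicCurve IntermediateField Polynomial IsLocalRing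

noncomputable section

namespace Fermat.Agent.S18.H9C

open Fermat.Agent.S18.H74 Fermat.Agent.S18.H80 Fermat.Agent.S18.H5

variable {K : Type*} [Field K] {A : ValuationSubring K} {F : Type*} [Field F] [Algebra K F]
  {O : ValuationSubring F} {x : F} {μ : ℕ} {θ : Fin μ → F}

/-- `x` is transcendental in the setting of the residue plumbing. -/
theorem transcendental_of_resData (D : ResData A O x θ) : Transcendental K x := by
  rw [transcendental_iff]
  intro p hp
  by_contra hne
  exact H80.aeval_ne_zero D.mem_iff D.gauss D.ne_top hne hp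

/-- The residue data of the disc of `b` for the concrete residue plumbing of helper80/helper5. -/
theorem discResidue [IsAlgClosed K] [CharZero K] (D : ResData A O x θ) (b : K) (hb : b ∈ A) :
    H4.DiscResidue A O x b (OL (K := K) O x) (residue ↥(OL (K := K) O x)) (Rbar A O x b) := by
  have := D.finite
  have hx := transcendental_of_resData D
  refine ⟨D.mem_iff, D.gauss, hb, fun c _ => H42.exists_over x hx c, fun r => Iff.rfl, ?_,
    fun z => mem_Rbar A O x b⟩
  intro r
  rw [residue_eq_zero_iff, mem_maximalIdeal_OL_iff]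

/-- The reduced basis lies in `red(S_b)`. -/
theorem basisRes_mem_Sbar (D : ResData A O x θ) (b : K)
    (hθS : ∀ i, θ i ∈ discRing A O x b) (i : Fin μ) : D.basisRes i ∈ Sbar A O x b := by
  rw [D.basisRes_apply]
  exact residue_mem_Sbar A O x b (f := ⟨θ i, D.theta_mem i⟩) (hθS i)

/-- `red(S_b) = ⊕ red(R_b) red(θ_i)` when `S_b = ⊕ R_b θ_i`. -/
theorem exists_repr_of_mem_Sbar (D : ResData A O x θ) (b : K)
    (hcoord : ∀ r : Fin μ → K⟮x⟯, (∑ i, (r i : F) * θ i) ∈ discRing A O x b →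
      ∀ i, (r i : F) ∈ discRing A O x b)
    (z : ResidueField ↥O) (hz : z ∈ Sbar A O x b) :
    ∃ c : Fin μ → ↥(Rbar A O x b), z = ∑ i, c i • D.basisRes i := by
  obtain ⟨f, hf, rfl⟩ := (mem_Sbar A O x b).1 hz
  have hsum := D.sum_repr (f : F)
  have hc : ∀ i, ((D.basisF.repr (f : F) i : K⟮x⟯) : F) ∈ discRing A O x b :=
    hcoord (fun i => D.basisF.repr (f : F) i) (by rw [hsum]; exact hf)
  let r : Fin μ → ↥(OL (K := K) O x) := fun i => ⟨D.basisF.repr (f : F) i, (hc i).1⟩
  refine ⟨fun i => ⟨residue ↥(OL (K := K) O x) (r i), residue_mem_Rbar A O x b (hc i)⟩, ?_⟩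
  have h1 := D.sum_residue_smul_thetaBar r
  have h2 : (⟨∑ i, ((r i : K⟮x⟯) : F) * θ i, D.sum_mem r⟩ : ↥O) = f := Subtype.ext hsum
  rw [h2] at h1
  rw [← h1]
  refine Finset.sum_congr rfl fun i _ => ?_
  rw [D.basisRes_apply]
  rfl

/-- An `O`-multiple of a nonunit is a nonunit (for any valuation subring). -/
theorem mul_mem_nonunits' {V : ValuationSubring F} {a m : F} (ha : a ∈ V)
    (hm : m ∈ V.nonunits) : a * m ∈ V.nonunits := by
  rw [ValuationSubring.mem_nonunits_iff] at hm ⊢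
  rw [map_mul]
  have h1 : V.valuation a ≤ 1 := (V.valuation_le_one_iff a).mpr ha
  calc V.valuation a * V.valuation m ≤ 1 * V.valuation m := by gcongr
    _ = V.valuation m := one_mul _
    _ < 1 := hm

variable (A O x) in
/-- The ideal `n_P` of `red(S_b)`: reductions of the functions of `S_b` vanishing at `P`. -/
def tubeIdeal (b : K) (P : Place K F) (hP : InDisc A x b P) : Ideal ↥(Sbar A O x b) where
  carrier := {z | ∃ f : ↥O, (f : F) ∈ discRing A O x b ∧
    (f : F) ∈ P.toValuationSubring.nonunits ∧ residue ↥O f = (z : ResidueField ↥O)}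
  add_mem' := by
    rintro z z' ⟨f, hf, hfP, hfz⟩ ⟨g, hg, hgP, hgz⟩
    refine ⟨f + g, (discSubring A O x b).add_mem hf hg,
      P.toValuationSubring.nonunits.add_mem hfP hgP, ?_⟩
    rw [map_add, hfz, hgz]
    rfl
  zero_mem' := ⟨0, (discSubring A O x b).zero_mem, P.toValuationSubring.nonunits.zero_mem, by
    rw [map_zero]; rfl⟩
  smul_mem' := by
    rintro c z ⟨f, hf, hfP, hfz⟩
    obtain ⟨g, hg, hgc⟩ := (mem_Sbar A O x b).1 c.2
    refine ⟨g * f, (discSubring A O x b).mul_mem hg hf, ?_, ?_⟩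
    · exact mul_mem_nonunits' ((ord_nonneg_iff_mem P _).1 (hg.2 P hP)) hfP
    · rw [map_mul, hgc, hfz]
      rfl

theorem mem_tubeIdeal (b : K) (P : Place K F) (hP : InDisc A x b P) (z : ↥(Sbar A O x b)) :
    z ∈ tubeIdeal A O x b P hP ↔ ∃ f : ↥O, (f : F) ∈ discRing A O x b ∧
      (f : F) ∈ P.toValuationSubring.nonunits ∧ residue ↥O f = (z : ResidueField ↥O) :=
  Iff.rfl

/-- Constants of `A` lie in `S_b`. -/
theorem const_mem_discRing (hmem : ∀ a : K, algebraMap K F a ∈ O ↔ a ∈ A) (b : K) {c : K}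
    (hc : c ∈ A) : algebraMap K F c ∈ discRing A O x b :=
  ⟨(hmem c).2 hc, fun P _ => (ord_nonneg_iff_mem P _).2 (P.algebraMap_mem' c)⟩

section Value

variable [IsAlgClosed K] (D : ResData A O x θ) (b : K)
  (EV : ∀ t : F, t ∈ discRing A O x b → ∀ P : Place K F, InDisc A x b P →
    ∀ c : K, 0 < P.ord (t - algebraMap K F c) → c ∈ A)
include D EV

/-- The value at a place of the disc of a function of `S_b` is an element of `A`. -/
theorem exists_value (P : Place K F) (hP : InDisc A x b P) {g : F}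
    (hg : g ∈ discRing A O x b) :
    ∃ c : K, c ∈ A ∧ g - algebraMap K F c ∈ P.toValuationSubring.nonunits := by
  have := D.finite
  obtain ⟨c, hc | hc⟩ := Fermat.Agent.S24.exists_sub_algebraMap_ord_pos x P
    ((ord_nonneg_iff_mem P g).1 (hg.2 P hP))
  · refine ⟨c, (D.mem_iff c).1 (hc ▸ hg.1), ?_⟩
    rw [hc, sub_self]
    exact P.toValuationSubring.nonunits.zero_mem
  · refine ⟨c, EV g hg P hP c hc, ?_⟩
    exact (Fermat.Agent.S24.H94.ord_pos_iff_mem_nonunits P
      (Fermat.Agent.S24.H94.ne_zero_of_ord_pos P hc)).1 hc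

end Value

section TubeIdeal

variable [IsAlgClosed K] (D : ResData A O x θ) (b : K)
  (EV : ∀ t : F, t ∈ discRing A O x b → ∀ P : Place K F, InDisc A x b P →
    ∀ c : K, 0 < P.ord (t - algebraMap K F c) → c ∈ A)
  (MO : ∀ e : F, e ∈ discRing A O x b → e ∈ O.nonunits →
    ∃ a : K, a ∈ A.nonunits ∧ ∃ t : F, t ∈ discRing A O x b ∧ e = algebraMap K F a * t)
  (P : Place K F) (hP : InDisc A x b P)

/-- The reduction of a constant of `A`, as an element of `red(S_b)`. -/
def constBar (c : K) (hc : c ∈ A) : ↥(Sbar A O x b) :=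
  ⟨residue ↥O (inclAO D.mem_iff ⟨c, hc⟩),
    residue_mem_Sbar A O x b (const_mem_discRing D.mem_iff b hc)⟩

omit [IsAlgClosed K] in
theorem constBar_eq_zero {c : K} (hc : c ∈ A) (hcm : c ∈ A.nonunits) :
    constBar D b c hc = 0 := by
  apply Subtype.ext
  change residue ↥O (inclAO D.mem_iff ⟨c, hc⟩) = 0
  rw [residue_eq_zero_iff, H80.mem_maximalIdeal_iff]
  exact (D.const_mem_nonunits_iff c).2 hcm

omit [IsAlgClosed K] in
theorem constBar_mul_inv {c : K} (hc : c ∈ A) (hc' : c⁻¹ ∈ A) (hc0 : c ≠ 0) :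
    constBar D b c⁻¹ hc' * constBar D b c hc = 1 := by
  apply Subtype.ext
  change residue ↥O (inclAO D.mem_iff ⟨c⁻¹, hc'⟩) * residue ↥O (inclAO D.mem_iff ⟨c, hc⟩) = 1
  rw [← map_mul, ← map_mul]
  have : (⟨c⁻¹, hc'⟩ : ↥A) * ⟨c, hc⟩ = 1 := Subtype.ext (inv_mul_cancel₀ hc0)
  rw [this, map_one, map_one]

include EV in
/-- Every element of `red(S_b)` is congruent modulo `n_P` to the reduction of a constant. -/
theorem exists_sub_constBar_mem (z : ↥(Sbar A O x b)) :
    ∃ (c : K) (hc : c ∈ A), z - constBar D b c hc ∈ tubeIdeal A O x b P hP := by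
  obtain ⟨g, hg, hgz⟩ := (mem_Sbar A O x b).1 z.2
  obtain ⟨c, hcA, hgc⟩ := exists_value D b EV P hP hg
  refine ⟨c, hcA, g - inclAO D.mem_iff ⟨c, hcA⟩, ?_, hgc, ?_⟩
  · exact (discSubring A O x b).sub_mem hg (const_mem_discRing D.mem_iff b hcA)
  · rw [map_sub, hgz]
    rfl

omit [IsAlgClosed K] in
include EV MO in
theorem one_notMem_tubeIdeal : (1 : ↥(Sbar A O x b)) ∉ tubeIdeal A O x b P hP := by
  rintro ⟨f, hf, hfP, hf1⟩
  -- `f - 1 ∈ m_O ∩ S_b`
  have h1 : (f : F) - 1 ∈ O.nonunits := by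
    have : residue ↥O (f - 1) = 0 := by
      rw [map_sub, hf1, map_one]
      exact sub_self _
    rw [residue_eq_zero_iff, H80.mem_maximalIdeal_iff] at this
    exact this
  have h2 : (f : F) - 1 ∈ discRing A O x b :=
    (discSubring A O x b).sub_mem hf (discSubring A O x b).one_mem
  obtain ⟨a, ha, t, ht, hat⟩ := MO _ h2 h1
  have hone : (1 : F) ∉ P.toValuationSubring.nonunits := by
    rw [ValuationSubring.mem_nonunits_iff, map_one]
    exact lt_irrefl _
  have ha0 : a ≠ 0 := by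
    rintro rfl
    rw [map_zero, zero_mul, sub_eq_zero] at hat
    rw [hat] at hfP
    exact hone hfP
  have hf0 : (f : F) ≠ 0 := by
    intro h0
    have : (1 : F) ∈ O.nonunits := by
      have := O.nonunits.neg_mem h1
      rwa [h0, zero_sub, neg_neg] at this
    rw [ValuationSubring.mem_nonunits_iff, map_one] at this
    exact lt_irrefl _ this
  have haF : algebraMap K F a ≠ 0 := by
    rwa [Ne, map_eq_zero]
  -- `t - (-a⁻¹) = a⁻¹ f` vanishes at `P`
  have hval : t - algebraMap K F (-a⁻¹) = algebraMap K F a⁻¹ * (f : F) := by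
    have : (f : F) = 1 + algebraMap K F a * t := by rw [← hat]; ring
    rw [this, map_neg, map_inv₀]
    field_simp
    ring
  have hpos : 0 < P.ord (t - algebraMap K F (-a⁻¹)) := by
    rw [hval]
    have hmem : algebraMap K F a⁻¹ * (f : F) ∈ P.toValuationSubring.nonunits :=
      mul_mem_nonunits' (P.algebraMap_mem' _) hfP
    have hne : algebraMap K F a⁻¹ * (f : F) ≠ 0 :=
      mul_ne_zero (by rw [Ne, map_eq_zero]; exact inv_ne_zero ha0) hf0
    exact (Fermat.Agent.S24.H94.ord_pos_iff_mem_nonunits P hne).2 hmem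
  have hA' : -a⁻¹ ∈ A := EV t ht P hP _ hpos
  have hA'' : a⁻¹ ∈ A := by
    have := A.neg_mem _ hA'
    rwa [neg_neg] at this
  rw [ValuationSubring.mem_nonunits_iff_or] at ha
  rcases ha with ha | ha
  · exact ha0 ha
  · exact ha hA''

include D EV MO in
/-- **`n_P` is a maximal ideal of `red(S_b)`.** -/
theorem isMaximal_tubeIdeal : (tubeIdeal A O x b P hP).IsMaximal := by
  rw [Ideal.isMaximal_iff]
  refine ⟨one_notMem_tubeIdeal b EV MO P hP, fun J z hJ hz hzJ => ?_⟩
  obtain ⟨c, hcA, hzc⟩ := exists_sub_constBar_mem D b EV P hP z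
  by_cases hcm : c ∈ A.nonunits
  · exfalso
    apply hz
    rw [constBar_eq_zero D b hcA hcm, sub_zero] at hzc
    exact hzc
  · rw [ValuationSubring.mem_nonunits_iff_or, not_or, not_not] at hcm
    have h1 : constBar D b c hcA ∈ J := by
      have := J.sub_mem hzJ (hJ hzc)
      rwa [sub_sub_cancel] at this
    have h2 := J.mul_mem_left (constBar D b c⁻¹ hcm.2) h1
    rwa [constBar_mul_inv D b hcA hcm.2 hcm.1] at h2

end TubeIdeal

/-- In a domain, `ϖ ^ n` associated to `ϖ * ε` (`ϖ` irreducible, `ε` a unit) forces `n = 1`. -/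
theorem eq_one_of_associated_pow {R : Type*} [CommRing R] [IsDomain R] {ϖ ε : R}
    (hϖ : Irreducible ϖ) (hε : IsUnit ε) {n : ℕ} (h : Associated (ϖ ^ n) (ϖ * ε)) : n = 1 := by
  obtain ⟨u, hu⟩ := h
  rcases n with _ | k
  · exfalso
    rw [pow_zero, one_mul] at hu
    apply hϖ.not_isUnit
    have h1 : IsUnit (ϖ * ε) := hu ▸ u.isUnit
    exact isUnit_of_mul_isUnit_left h1
  · rcases k with _ | k
    · rfl
    · exfalso
      rw [pow_succ', mul_assoc] at hu
      have h2 : ϖ ^ (k + 1) * (u : R) = ε := mul_left_cancel₀ hϖ.ne_zero hu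
      have h3 : IsUnit (ϖ ^ (k + 1)) := by
        have : IsUnit (ϖ ^ (k + 1) * (u : R)) := h2 ▸ hε
        exact isUnit_of_mul_isUnit_left this
      exact hϖ.not_isUnit ((isUnit_pow_iff (Nat.succ_ne_zero k)).1 h3)

open Classical in
/-- **Tubes (D8).**  Hypotheses: the residue plumbing `D` for an orthonormal basis `θ` with
`S_b = ⊕ R_b θ_i` (`hθS`, `hcoord`: the minimal tuple, D3), the Key Lemma `hcl`
(`red(S_b)` is integrally closed in the residue field of `O`), and the two consequences (EV), (MO)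
of D3.  Then every place `P` of the residue disc of `b` has a uniformiser `τ ∈ S_b` which is a
unit of `O` and has no other zero on the disc. -/
theorem exists_tube [IsAlgClosed K] [CharZero K] (D : ResData A O x θ) (b : K) (hb : b ∈ A)
    (hθS : ∀ i, θ i ∈ discRing A O x b)
    (hcoord : ∀ r : Fin μ → K⟮x⟯, (∑ i, (r i : F) * θ i) ∈ discRing A O x b →
      ∀ i, (r i : F) ∈ discRing A O x b)
    (hcl : ∀ z : ResidueField ↥O, IsIntegral ↥(Rbar A O x b) z → z ∈ Sbar A O x b)
    (EV : ∀ t : F, t ∈ discRing A O x b → ∀ P : Place K F, InDisc A x b P →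
      ∀ c : K, 0 < P.ord (t - algebraMap K F c) → c ∈ A)
    (MO : ∀ e : F, e ∈ discRing A O x b → e ∈ O.nonunits →
      ∃ a : K, a ∈ A.nonunits ∧ ∃ t : F, t ∈ discRing A O x b ∧ e = algebraMap K F a * t)
    (P : Place K F) (hP : InDisc A x b P) :
    ∃ τ : F, τ ∈ discRing A O x b ∧ τ⁻¹ ∈ O ∧ P.ord τ = 1 ∧
      ∀ P' : Place K F, InDisc A x b P' → P' ≠ P → P'.ord τ = 0 := by
  have hfinF := D.finite
  have hx := transcendental_of_resData D
  have hDR := discResidue D b hb
  have : IsDiscreteValuationRing ↥(Rbar A O x b) := hDR.isDiscreteValuationRing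
  have : IsFractionRing ↥(Rbar A O x b) (ResidueField ↥(OL (K := K) O x)) :=
    hDR.isFractionRing residue_surjective
  have : FiniteDimensional (ResidueField ↥(OL (K := K) O x)) (ResidueField ↥O) := D.finite_res
  obtain ⟨xb, ϖ, hxb, hϖ⟩ := hDR.exists_unif
  have hirr : Irreducible ϖ := hDR.irreducible hxb hϖ
  have hbB := basisRes_mem_Sbar D b hθS
  have hBb := exists_repr_of_mem_Sbar D b hcoord
  have hmax := isMaximal_tubeIdeal D b EV MO P hP
  have hdeg : ∀ z : ↥(Sbar A O x b), ∃ a : ↥(Rbar A O x b),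
      z - algebraMap ↥(Rbar A O x b) ↥(Sbar A O x b) a ∈ tubeIdeal A O x b P hP := by
    intro z
    obtain ⟨c, hcA, hzc⟩ := exists_sub_constBar_mem D b EV P hP z
    have hcb : (((inclAL (x := x) D.mem_iff ⟨c, hcA⟩ : ↥(OL (K := K) O x)) : K⟮x⟯) : F)
        ∈ discRing A O x b := const_mem_discRing D.mem_iff b hcA
    refine ⟨⟨residue ↥(OL (K := K) O x) (inclAL (x := x) D.mem_iff ⟨c, hcA⟩),
      residue_mem_Rbar A O x b hcb⟩, ?_⟩
    have heq : algebraMap ↥(Rbar A O x b) ↥(Sbar A O x b)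
        ⟨residue ↥(OL (K := K) O x) (inclAL (x := x) D.mem_iff ⟨c, hcA⟩),
          residue_mem_Rbar A O x b hcb⟩ = constBar D b c hcA := by
      apply Subtype.ext
      exact algebraMap_Rbar_residue A O x b _ hcb
    rw [heq]
    exact hzc
  obtain ⟨τbar, hn, ε, hε, hnorm⟩ := H45.exists_generator_norm (Sbar A O x b) D.basisRes hbB hBb
    hcl hirr (tubeIdeal A O x b P hP) hmax hdeg
  -- a lift of the generator vanishing at `P`
  have hτmem : τbar ∈ tubeIdeal A O x b P hP := by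
    rw [hn]
    exact Ideal.mem_span_singleton_self τbar
  obtain ⟨f, hfS, hfP, hfτ⟩ := hτmem
  have hϖε : ϖ * ε ≠ 0 := mul_ne_zero hirr.ne_zero hε.ne_zero
  have hϖε' : ((ϖ * ε : ↥(Rbar A O x b)) : ResidueField ↥(OL (K := K) O x)) ≠ 0 := by
    intro h0
    exact hϖε (Subtype.ext h0)
  have hnorm0 : Algebra.norm (ResidueField ↥(OL (K := K) O x)) (τbar : ResidueField ↥O) ≠ 0 := by
    rw [hnorm]
    exact hϖε'
  have hτbar0 : (τbar : ResidueField ↥O) ≠ 0 := by
    intro h0
    apply hnorm0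
    rw [h0]
    exact Algebra.norm_zero
  have hf0 : residue ↥O f ≠ 0 := by
    rw [hfτ]
    exact hτbar0
  have hfunit : (f : F) ∉ O.nonunits := by
    intro h
    apply hf0
    rw [residue_eq_zero_iff, H80.mem_maximalIdeal_iff]
    exact h
  have hfF0 : (f : F) ≠ 0 := fun h => hfunit (h ▸ O.nonunits.zero_mem)
  have hfinv : (f : F)⁻¹ ∈ O := by
    rw [ValuationSubring.mem_nonunits_iff_or, not_or, not_not] at hfunit
    exact hfunit.2
  have hPpos : 0 < P.ord (f : F) :=
    (Fermat.Agent.S24.H94.ord_pos_iff_mem_nonunits P hfF0).2 hfP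
  -- the norm of the lift
  have hdcoe : (((D.normO f : ↥(OL (K := K) O x)) : K⟮x⟯) : F)
      = ((Algebra.norm K⟮x⟯ (f : F) : K⟮x⟯) : F) := by
    rw [D.coe_normO]
  have hdres : ((ϖ * ε : ↥(Rbar A O x b)) : ResidueField ↥(OL (K := K) O x))
      = residue ↥(OL (K := K) O x) (D.normO f) := by
    rw [D.residue_normO, hfτ, hnorm]
    rfl
  have hdO : (((D.normO f : ↥(OL (K := K) O x)) : K⟮x⟯) : F) ∈ O := (D.normO f).2
  have hdnon : (((D.normO f : ↥(OL (K := K) O x)) : K⟮x⟯) : F) ∉ O.nonunits := by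
    intro h
    have h0 := (hDR.red_eq_zero (D.normO f)).2 h
    rw [← hdres] at h0
    exact hϖε' h0
  have hd0 : (((D.normO f : ↥(OL (K := K) O x)) : K⟮x⟯) : F) ≠ 0 :=
    fun h => hdnon (h ▸ O.nonunits.zero_mem)
  have hdinv : ((((D.normO f : ↥(OL (K := K) O x)) : K⟮x⟯) : F))⁻¹ ∈ O := by
    rw [ValuationSubring.mem_nonunits_iff_or, not_or, not_not] at hdnon
    exact hdnon.2
  have hdpole : ∀ P' : Place K F, InDisc A x b P' →
      0 ≤ P'.ord (((D.normO f : ↥(OL (K := K) O x)) : K⟮x⟯) : F) := by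
    rintro P' ⟨c, hc, hP'⟩
    rw [hdcoe]
    exact H46.ord_norm_nonneg x hx c (fun P'' hP'' => hfS.2 P'' ⟨c, hc, hP''⟩) P' hP'
  obtain ⟨p, q, hp, hq, -, hqc, hpq⟩ := H4.exists_disc_normal_form D.mem_iff D.gauss b hDR.fib
    (r := (((D.normO f : ↥(OL (K := K) O x)) : K⟮x⟯) : F))
    ((D.normO f : ↥(OL (K := K) O x)) : K⟮x⟯).2 hd0 hdO hdinv hdpole
  have hassoc := hDR.associated_pow hxb hϖ (d := D.normO f) ⟨hdO, hdpole⟩ hd0 hdinv hp hqc hpq
    (dbar := ϖ * ε) hdres
  have hone : H4.discZeros A b p = 1 := eq_one_of_associated_pow hirr hε hassoc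
  have hzero : H4.discZeros A b q = 0 := (H4.discZeros_eq_zero_iff A b hq.ne_zero).2 hqc
  -- the norm-order formula and the count
  have hnormord : ∀ c : K, (p.rootMultiplicity c : ℤ) - q.rootMultiplicity c
      = ∑ᶠ P' ∈ {P' : Place K F | 0 < P'.ord (x - algebraMap K F c)}, P'.ord (f : F) :=
    fun c => H53.norm_order x hx hfF0 p q hq.ne_zero (by rw [← hdcoe]; exact hpq) c
  have hcount : p.roots.countP (fun c => c - b ∈ A.nonunits)
      = q.roots.countP (fun c => c - b ∈ A.nonunits) + 1 := by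
    change H4.discZeros A b p = H4.discZeros A b q + 1
    rw [hone, hzero]
  obtain ⟨h1, h2⟩ := tube_of_norm A x b (H42.finite_over x hx) (f : F)
    (H42.finite_ord_ne_zero x hx hfF0) hfS.2 p q hnormord hcount P hP hPpos
  exact ⟨f, hfS, hfinv, h1, h2⟩

end Fermat.Agent.S18.H9C
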