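/-
S18 / wave 4, leaf C1 (helper9, assembly owner): `exists_clear` — the CLEARING LEMMA
(Key Lemma (II) + tubes), statement VERBATIM as in the skeleton `H74/Core.lean` of helper74.

Assembly of the landed pieces:
* `H9C.exists_clear_of`  : clearing (D9) from (FIN), (TUBE), (IC), (EV), (MO);
* `H9C.exists_tube`      : tubes (D8), from the residue plumbing and the Key Lemma;
* `H5.key_closed`, `H5.key_ic` : the Key Lemma (helper5) and its output (IC);
* `H49.keyHyp_of_tame`, `H49.tameLocal`, `H49.ev_disc`, `H49.mo_disc` (helper49; D3 of helper27,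
  D5, D4, the tame bound of helper7, C1-ONE of helper18/helper59);
* `H42.finite_ord_ne_zero` (FIB3, helper42).
-/
import Fermat.Agent.S18.H9C.ClearDisc
import Fermat.Agent.S18.H9C.Tube
import Fermat.Agent.S18.H49.C1Tube
import Fermat.Agent.S18.H5.Key

set_option autoImplicit false

open AlgebraicCurve IntermediateField

namespace Fermat.Agent.S18.H9C

open Fermat.Agent.S18.H74 Fermat.Agent.S18.H80

variable {K : Type*} [Field K] {A : ValuationSubring K} {F : Type*} [Field F] [Algebra K F]
  {O : ValuationSubring F} {x : F}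

/-- **(TUBE)** for a `Setup`: every place of a residue disc has a uniformiser in `S_b` which is
a unit of `O` and has no other zero on the disc. -/
theorem tube_disc [IsAlgClosed K] [CharZero K] (hA : A ≠ ⊤) (hS : Setup K A F O x)
    (b : K) (hb : b ∈ A) (P : Place K F) (hP : InDisc A x b P) :
    ∃ τ : F, τ ∈ discRing A O x b ∧ τ⁻¹ ∈ O ∧ P.ord τ = 1 ∧
      ∀ P' : Place K F, InDisc A x b P' → P' ≠ P → P'.ord τ = 0 := by
  have := hS.finite
  have hkey := Fermat.Agent.S18.H49.keyHyp_of_tame hA hS Fermat.Agent.S18.H49.tameLocal b hb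
  have hcl := Fermat.Agent.S18.H5.key_closed hA hS hb hkey
  obtain ⟨θ, b0, n, ε, r, v, hθ, hb0, hgram, hε1, hε2, hnr, hvA, hvind, hnil⟩ := hkey
  have D : ResData A O x θ :=
    resData_of_setup hA hS θ hθ.on
      (Fermat.Agent.S18.H5.gramDet_inv_mem hS hb b0 hb0 n ε hgram hε2)
  exact exists_tube D b hb hθ.mem hθ.coord hcl
    (fun t ht P hP c hc => Fermat.Agent.S18.H49.ev_disc hA hS b hb t ht P hP c hc)
    (fun e he heO => Fermat.Agent.S18.H49.mo_disc hS b e he heO) P hP

/-- **C1 = `exists_clear`** (statement VERBATIM from the skeleton `H74/Core.lean`):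
a one-unit whose divisor is divisible by `m` on a residue disc can be written there as the
divisor of `g ^ m` for a ONE-UNIT `g`. -/
theorem exists_clear [IsAlgClosed K] [CharZero K] (hA : A ≠ ⊤) (hS : Setup K A F O x)
    (b : K) (hb : b ∈ A) (m : ℕ) (hm : m ≠ 0) (u : F) (hu : u - 1 ∈ O.nonunits)
    (hord : ∀ P : Place K F, InDisc A x b P → (m : ℤ) ∣ P.ord u) :
    ∃ g : F, g - 1 ∈ O.nonunits ∧
      ∀ P : Place K F, InDisc A x b P → (m : ℤ) * P.ord g = P.ord u := by
  have := hS.finite
  have hx : Transcendental K x :=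
    Fermat.Agent.S18.H22.transcendental_of_gauss hA hS.mem_iff hS.gauss
  have hu0 : u ≠ 0 := by
    rintro rfl
    have h1 : (1 : F) ∈ O.nonunits := by
      have := O.nonunits.neg_mem hu
      simpa using this
    rw [ValuationSubring.mem_nonunits_iff, map_one] at h1
    exact lt_irrefl _ h1
  have hkey := Fermat.Agent.S18.H49.keyHyp_of_tame hA hS Fermat.Agent.S18.H49.tameLocal b hb
  refine exists_clear_of A O x b m u hu hord
    ((Fermat.Agent.S18.H42.finite_ord_ne_zero x hx hu0).subset fun P hP => hP.2)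
    (fun P hP => ?_)
    (fun y hy h => ?_)
    (fun t ht P hP c hc => Fermat.Agent.S18.H49.ev_disc hA hS b hb t ht P hP c hc)
    (fun e he heO => Fermat.Agent.S18.H49.mo_disc hS b e he heO)
  · obtain ⟨τ, hτ, hτO, h1, h2⟩ := tube_disc hA hS b hb P hP
    exact ⟨τ, hτ.1, hτO, h1, h2⟩
  · obtain ⟨w, hw, hyw⟩ := h
    exact Fermat.Agent.S18.H5.key_ic hA hS b hb hkey m hm y hy w hw hyw

end Fermat.Agent.S18.H9C
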